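import Fermat.Agent.S59.H672.NeatPullInst
import Fermat.Agent.Ribet.H223.HeckeGaussRed
import Fermat.Agent.S37.H157.NormId

/-!
# Row S59, cell (B1): SPLIT-UP for the pull-back `neatPullR` (helper672)

    splitUp : x ∈ splitPartQ p q M' A → neatPullR q r M' x ∈ splitPartQ p q (r * M') A

A Kummer generator `f` of `x` is a Kummer generator of `π^* x`; its reduction on `C∞` is
unchanged, its reduction on `C₀` becomes `r₂ (t ^ r)` (`w_{Nr} ∘ α = β ∘ w_N`), and both stay
constants times `p`-th powers.  No condition on `p`, `q`, `r`, `M'` (only `NeZero`).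
-/

set_option autoImplicit false
set_option linter.style.haveILetI false
set_option linter.unusedSectionVars false
set_option synthInstance.maxHeartbeats 400000
set_option maxHeartbeats 1000000

noncomputable section

namespace Fermat.Agent.S59.H672.NeatPull

open AlgebraicCurve ModularCurve HahnSeries
open Fermat.Agent.S24 Fermat.Agent.A2.H708 Fermat.Agent.A2.H528
open Fermat.Agent.S37.H818 (pullbackPic0Along pullbackDegZeroAlong)
open Fermat.Agent.Ribet.H801 (jzeroCast)
open Fermat.Agent.Ribet.H884 (IsKummerGen IsRedInf IsRedZero kA)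
open Fermat.Agent.Ribet.H158.WallQ (PPowSeries SplitGenQ splitSetQ splitPartQ)

/-! ### Kummer generators under the pull-back -/

/-- A Kummer generator of `x` is a Kummer generator of `π^* x` (inclusion `F(N) ⊆ F(N r)`). -/
theorem isKummerGen_pullHom672 (N r p : ℕ) [NeZero N] [NeZero r] {f : FF N} {x : JZero N}
    (h : IsKummerGen N p f x) :
    IsKummerGen (N * r) p (heckeAlphaBar Kbar N r f) (Fermat.Agent.S37.H155.pullHom N r x) := by
  obtain ⟨hf0, D, hDx, hD⟩ := h
  have hα : (heckeAlphaBar Kbar N r).toRingHom.IsIntegral :=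
    Fermat.Agent.Lib.FF398.heckeAlphaBarIntegral N r
  refine ⟨(map_ne_zero_iff _ (heckeAlphaBar Kbar N r).toRingHom.injective).mpr hf0,
    pullbackDegZeroAlong (heckeAlphaBar Kbar N r) hα
      (Fermat.Agent.Lib.FF398.fundamentalIdentityAlong_alpha N r) D, ?_, ?_⟩
  · rw [← hDx]
    rfl
  · intro w
    have h1 : ((pullbackDegZeroAlong (heckeAlphaBar Kbar N r) hα
        (Fermat.Agent.Lib.FF398.fundamentalIdentityAlong_alpha N r) D :
          Divisor.degZero (K := Kbar) (F := FF (N * r))) : Divisor Kbar (FF (N * r))) w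
        = Place.ramificationIndexAlong (heckeAlphaBar Kbar N r) w
            * (D : Divisor Kbar (FF N)) (w.restrictAlong (heckeAlphaBar Kbar N r) hα) :=
      Divisor.pullbackAlong_apply (heckeAlphaBar Kbar N r) hα (D : Divisor Kbar (FF N)) w
    have h2 := Place.ord_restrictAlong (heckeAlphaBar Kbar N r) hα w f
    rw [h1, h2, hD]
    ring

/-! ### Level casts -/

theorem exists_castFF672 {N N' : ℕ} (h : N = N') (f : FF N) :
    ∃ f' : FF N', (f' : LaurentSeries Kbar) = (f : LaurentSeries Kbar) := by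
  subst h
  exact ⟨f, rfl⟩

theorem isKummerGen_cast672 {N N' : ℕ} [NeZero N] [NeZero N'] (h : N = N') (p : ℕ)
    {f : FF N} {f' : FF N'} (hff : (f' : LaurentSeries Kbar) = (f : LaurentSeries Kbar))
    {x : JZero N} (hx : IsKummerGen N p f x) : IsKummerGen N' p f' (jzeroCast h x) := by
  subst h
  obtain rfl : f' = f := Subtype.ext hff
  exact hx

theorem isRedZero_cast672 {N N' : ℕ} [NeZero N] [NeZero N'] (h : N = N')
    {A : ValuationSubring Kbar} {f : FF N} {f' : FF N'}
    (hff : (f' : LaurentSeries Kbar) = (f : LaurentSeries Kbar)) {ρ : LaurentSeries (kA A)}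
    (hr : IsRedZero N A f ρ) : IsRedZero N' A f' ρ := by
  subst h
  obtain rfl : f' = f := Subtype.ext hff
  exact hr

/-! ### Constants times `p`-th powers -/

section PPow

variable {k : Type} [Field k]

theorem pPowSeries_up672 (p M r : ℕ) [NeZero M] [NeZero r] {ρ : LaurentSeries k}
    (h : PPowSeries p M ρ) :
    PPowSeries p (r * M) ρ := by
  obtain ⟨c, g, hc, hg, e⟩ := h
  refine ⟨c, ⟨(g : LaurentSeries k), full_degeneracyC_le k (Dvd.intro_left r rfl) g.2⟩, hc, ?_, e⟩
  intro h0
  have h1 : (g : LaurentSeries k) = 0 := congrArg Subtype.val h0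
  exact hg (Subtype.ext h1)

theorem qExpand_C672 (r : ℕ) [NeZero r] (c : k) :
    qExpand k r (HahnSeries.C c) = HahnSeries.C c := by
  show qExpand k r (HahnSeries.single 0 c) = HahnSeries.single 0 c
  rw [qExpand_single, mul_zero]

theorem pPowSeries_qExpand672 (p M r : ℕ) [NeZero M] [NeZero r] {ρ : LaurentSeries k}
    (h : PPowSeries p M ρ) : PPowSeries p (r * M) (qExpand k r ρ) := by
  obtain ⟨c, g, hc, hg, e⟩ := h
  have hmem : qExpand k r (g : LaurentSeries k) ∈ modularFunctionFieldFullC k (r * M) := by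
    rw [Nat.mul_comm r M]
    exact Fermat.Agent.S37.H157.qExpand_mem_full_mul k M r g.2
  refine ⟨c, ⟨qExpand k r (g : LaurentSeries k), hmem⟩, hc, ?_, ?_⟩
  · intro h0
    have h1 : qExpand k r (g : LaurentSeries k) = 0 := congrArg Subtype.val h0
    have h2 : (g : LaurentSeries k) = 0 :=
      (qExpand k r).injective (h1.trans (map_zero _).symm)
    exact hg (Subtype.ext h2)
  · rw [e, map_mul, map_pow, qExpand_C672]

end PPow

/-! ### SPLIT-UP -/

section SplitUp

variable (p q r M' : ℕ) [NeZero q] [NeZero r] [NeZero M'] [NeZero (q * M')] [NeZero (r * M')]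
  [NeZero (q * (r * M'))] (A : ValuationSubring Kbar)

/-- `neatPullR` as the cast of `pullHom`. -/
theorem neatPullR_eq672 (x : JZero (q * M')) :
    neatPullR q r M' x = jzeroCast (show q * M' * r = q * (r * M') by ring)
      (Fermat.Agent.S37.H155.pullHom (q * M') r x) := by
  rw [neatPullR_apply, neatPull_apply, jzeroCast_trans672]

/-- **KUM-PULL**: a Kummer generator `f` of `x` gives a Kummer generator of `π^* x` with the
SAME expansion at `∞`. -/
theorem exists_kummerGen_neatPullR {f : FF (q * M')} {x : JZero (q * M')}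
    (hK : IsKummerGen (q * M') p f x) :
    ∃ f' : FF (q * (r * M')), (f' : LaurentSeries Kbar) = (f : LaurentSeries Kbar) ∧
      IsKummerGen (q * (r * M')) p f' (neatPullR q r M' x) := by
  have hlev : q * M' * r = q * (r * M') := by ring
  obtain ⟨f', hf'⟩ := exists_castFF672 hlev (heckeAlphaBar Kbar (q * M') r f)
  refine ⟨f', hf'.trans (coe_heckeAlphaBar (q * M') r f), ?_⟩
  rw [neatPullR_eq672]
  exact isKummerGen_cast672 hlev p hf' (isKummerGen_pullHom672 (q * M') r p hK)

/-- The reductions of the Kummer generator of `π^* x`: unchanged on `C∞`, `t ↦ t ^ r` on `C₀`. -/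
theorem isRed_of_coe_eq672 {f : FF (q * M')} {f' : FF (q * (r * M'))}
    (hff : (f' : LaurentSeries Kbar) = (f : LaurentSeries Kbar))
    {r₁ r₂ : LaurentSeries (kA A)} (hinf : IsRedInf (q * M') A f r₁)
    (h0 : IsRedZero (q * M') A f r₂) :
    IsRedInf (q * (r * M')) A f' r₁ ∧ IsRedZero (q * (r * M')) A f' (qExpand (kA A) r r₂) := by
  have hlev : q * M' * r = q * (r * M') := by ring
  refine ⟨Fermat.Agent.Ribet.H223.M6a.isRedInf_congr hff hinf, ?_⟩
  exact isRedZero_cast672 hlev (hff.trans (coe_heckeAlphaBar (q * M') r f).symm)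
    (Fermat.Agent.Ribet.H223.M6a.isRedZero_alpha h0)

/-- SPLIT-UP on the generators. -/
theorem splitSetQ_up {x : JZero (q * M')} (hx : x ∈ splitSetQ p q M' A) :
    neatPullR q r M' x ∈ splitSetQ p q (r * M') A := by
  obtain ⟨f, hK, r₁, r₂, hinf, h0, hP₁, hP₂⟩ := hx
  have hlev : q * M' * r = q * (r * M') := by ring
  obtain ⟨f', hf'⟩ := exists_castFF672 hlev (heckeAlphaBar Kbar (q * M') r f)
  refine ⟨f', ?_, r₁, qExpand (kA A) r r₂, ?_, ?_, pPowSeries_up672 p M' r hP₁,
    pPowSeries_qExpand672 p M' r hP₂⟩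
  · rw [neatPullR_eq672]
    exact isKummerGen_cast672 hlev p hf' (isKummerGen_pullHom672 (q * M') r p hK)
  · exact Fermat.Agent.Ribet.H223.M6a.isRedInf_congr
      (hf'.trans (coe_heckeAlphaBar (q * M') r f)) hinf
  · exact isRedZero_cast672 hlev hf' (Fermat.Agent.Ribet.H223.M6a.isRedZero_alpha h0)

/-- **SPLIT-UP**: `π^*` maps `splitPartQ` at level `(q, M')` into `splitPartQ` at level
`(q, r M')`. -/
theorem splitUp {x : JZero (q * M')} (hx : x ∈ splitPartQ p q M' A) :
    neatPullR q r M' x ∈ splitPartQ p q (r * M') A := by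
  have hle : splitPartQ p q M' A ≤ (splitPartQ p q (r * M') A).comap (neatPullR q r M') := by
    unfold splitPartQ
    rw [AddSubgroup.closure_le]
    intro y hy
    exact AddSubgroup.subset_closure (splitSetQ_up p q r M' A hy)
  exact hle hx

end SplitUp

end Fermat.Agent.S59.H672.NeatPull

end
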