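import Fermat.Agent.S35.H155.AuxPull
import Fermat.Agent.S36.H160.AuxPull
import Fermat.Agent.S37.H155.Pull
import Fermat.Agent.Ribet.H801.ALWall
import Fermat.Agent.Ribet.H158.WallQSlope

/-!
# Row S59, cell (B1) WALL-q in W-form: the leaf NEAT-PULL (helper672)

`π^* : J₀(q M') → J₀(q (M' a))`, the pull-back of divisor classes along the inclusion
`F(q M') ⊆ F(q M' a)` (`a` an auxiliary prime, `a ≠ q`, `a ∤ q M'`), in the level convention of
the wall at `q` (`H158.WallQ`), with its properties: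

* `neatPull_smul`        : Galois equivariance;
* `neatPull_hecke`       : `π^* T_ℓ = T_ℓ π^*` for every prime `ℓ ≠ a`;
* `neatPull_eigenAt`     : `EigenAt (q M') S c x → EigenAt (q (M' a)) (insert a S) c (π^* x)`;
* `neatPull_alphaL`, `neatPull_betaL` : base change with the degeneracy push-forwards at `q`;
* `neatPull_isNewTorsQ`  : `π^*` preserves `IsNewTorsQ`;
* `neatPull_inj`         : `π^*` is injective on `m`-torsion, `gcd (m, a + 1) = 1`;
* `neatPush`, `neatPush_neatPull` : the push-forward `π_*`, Galois equivariant, `π_* π^* = a + 1`.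
-/

set_option autoImplicit false
set_option linter.style.haveILetI false
set_option linter.unusedSectionVars false
set_option synthInstance.maxHeartbeats 400000
set_option maxHeartbeats 1000000

noncomputable section

namespace Fermat.Agent.S59.H672.NeatPull

open AlgebraicCurve ModularCurve
open Fermat.Agent.S37.H818 (pullbackPic0Along)
open Fermat.Agent.Ribet.H801 (alphaL betaL alphaPush betaPush jzeroCast)
open Fermat.Agent.Ribet.H158.WallQ (IsNewTorsQ)
open Fermat.Agent.Ribet.H944.Wall (EigenAt)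

/-! ### Pull-backs along inclusions and level casts -/

section Cast

theorem jzeroCast_trans672 {N N' N'' : ℕ} [NeZero N] [NeZero N'] [NeZero N''] (h : N = N')
    (h' : N' = N'') (x : JZero N) : jzeroCast h' (jzeroCast h x) = jzeroCast (h.trans h') x := by
  subst h
  subst h'
  rfl

theorem jzeroCast_symm672 {N N' : ℕ} [NeZero N] [NeZero N'] (h : N = N') (x : JZero N) :
    jzeroCast h.symm (jzeroCast h x) = x := by
  subst h
  rfl

/-- Two "inclusions" (identity on expansions) between function fields whose levels are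
propositionally equal induce the same pull-back on `J₀`, up to the level casts. -/
theorem pullback_cast672 {N N' N₁ N₁' : ℕ} [NeZero N] [NeZero N'] [NeZero N₁] [NeZero N₁']
    (h₀ : N = N') (h₁ : N₁ = N₁')
    (i : modularFunctionFieldBar N →ₐ[AlgebraicClosure ℚ] modularFunctionFieldBar N₁)
    (i' : modularFunctionFieldBar N' →ₐ[AlgebraicClosure ℚ] modularFunctionFieldBar N₁')
    (hcoe : ∀ x, ((i x : modularFunctionFieldBar N₁) : LaurentSeries (AlgebraicClosure ℚ))
      = (x : LaurentSeries (AlgebraicClosure ℚ)))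
    (hcoe' : ∀ x, ((i' x : modularFunctionFieldBar N₁') : LaurentSeries (AlgebraicClosure ℚ))
      = (x : LaurentSeries (AlgebraicClosure ℚ)))
    [HasPrincipalDivisors (AlgebraicClosure ℚ) (modularFunctionFieldBar N₁)]
    [HasPrincipalDivisors (AlgebraicClosure ℚ) (modularFunctionFieldBar N₁')]
    (hi : i.toRingHom.IsIntegral) (hFI : FundamentalIdentityAlong (AlgebraicClosure ℚ) i hi)
    (hi' : i'.toRingHom.IsIntegral) (hFI' : FundamentalIdentityAlong (AlgebraicClosure ℚ) i' hi')
    (x : JZero N) :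
    pullbackPic0Along i' hi' hFI' (jzeroCast h₀ x) = jzeroCast h₁ (pullbackPic0Along i hi hFI x) := by
  subst h₀
  subst h₁
  have hii : i = i' := AlgHom.ext fun y => Subtype.ext ((hcoe y).trans (hcoe' y).symm)
  subst hii
  rfl

end Cast

section Def

variable (q M' a : ℕ) [NeZero q] [NeZero M'] [NeZero a] [NeZero (q * M')]
  [NeZero (q * (M' * a))]

/-- **NEAT-PULL**: `π^* : J₀(q M') → J₀(q (M' a))`. -/
def neatPull : JZero (q * M') →+ JZero (q * (M' * a)) :=
  (jzeroCast (Nat.mul_assoc q M' a)).toAddMonoidHom.comp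
    (Fermat.Agent.S37.H155.pullHom (q * M') a)

theorem neatPull_apply (x : JZero (q * M')) :
    neatPull q M' a x = jzeroCast (Nat.mul_assoc q M' a)
      (Fermat.Agent.S37.H155.pullHom (q * M') a x) :=
  rfl

/-- `π^*` in terms of the pull-back `S35.H155.pullTop` (levels `M' q`, `M' a q`). -/
theorem neatPull_eq_pullTop (x : JZero (q * M')) :
    neatPull q M' a x = jzeroCast (Nat.mul_comm (M' * a) q)
      (Fermat.Agent.S35.H155.pullTop M' a q (jzeroCast (Nat.mul_comm q M') x)) := by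
  rw [neatPull_apply]
  have h := pullback_cast672 (Nat.mul_comm q M') (show q * M' * a = M' * a * q by ring)
    (heckeAlphaBar (AlgebraicClosure ℚ) (q * M') a) (Fermat.Agent.S35.H155.iT M' a q)
    (fun y => coe_heckeAlphaBar (q * M') a y) (fun y => Fermat.Agent.S37.H155.coe_iTop M' a q y)
    (Fermat.Agent.Lib.FF398.heckeAlphaBarIntegral (q * M') a)
    (Fermat.Agent.Lib.FF398.fundamentalIdentityAlong_alpha (q * M') a)
    (Fermat.Agent.S35.H155.iT_integral M' a q)
    (Fermat.Agent.S35.H155.fundamentalIdentityAlong_iT M' a q) x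
  have h' : Fermat.Agent.S35.H155.pullTop M' a q (jzeroCast (Nat.mul_comm q M') x)
      = jzeroCast (show q * M' * a = M' * a * q by ring)
        (Fermat.Agent.S37.H155.pullHom (q * M') a x) := h
  rw [h', jzeroCast_trans672]

/-- `π^*` is Galois equivariant. -/
theorem neatPull_smul (σ : AlgebraicClosure ℚ ≃ₐ[ℚ] AlgebraicClosure ℚ) (x : JZero (q * M')) :
    neatPull q M' a (σ • x) = σ • neatPull q M' a x := by
  rw [neatPull_apply, neatPull_apply, Fermat.Agent.S37.H155.pullHom_galois,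
    Fermat.Agent.Ribet.H801.jzeroCast_smul]

/-- **INJ** (coprime case): `π^*` is injective on `m`-torsion when `gcd (m, a + 1) = 1`. -/
theorem neatPull_inj (ha : a.Prime) (haN : ¬ a ∣ q * M') (m : ℕ) (hcop : Nat.Coprime m (a + 1))
    (x : JZero (q * M')) (hm : m • x = 0) (hx : neatPull q M' a x = 0) : x = 0 := by
  rw [neatPull_apply] at hx
  have h1 : Fermat.Agent.S37.H155.pullHom (q * M') a x = 0 :=
    (jzeroCast (Nat.mul_assoc q M' a)).injective (hx.trans (map_zero _).symm)
  exact Fermat.Agent.S37.H155.pullHom_inj_torsion (q * M') a ha haN m hcop x hm h1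

/-- `π^* T_ℓ = T_ℓ π^*` for every prime `ℓ ≠ a`. -/
theorem neatPull_hecke (ha : a.Prime) (ℓ : Nat.Primes) (hne : a ≠ (ℓ : ℕ))
    (x : JZero (q * M')) :
    neatPull q M' a (heckeOperatorBar (q * M') ℓ x)
      = heckeOperatorBar (q * (M' * a)) ℓ (neatPull q M' a x) := by
  haveI : NeZero (ℓ : ℕ) := ⟨ℓ.2.ne_zero⟩
  rw [neatPull_apply, neatPull_apply, ← Fermat.Agent.Ribet.H801.jzeroCast_heckeOperatorBar,
    heckeOperatorBar_apply, heckeOperatorBar_apply,
    Fermat.Agent.S37.H155.pullHom_hecke (q * M') a (ℓ : ℕ) ℓ.2 ha hne]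

/-- `π^*` preserves Hecke eigenclasses (the auxiliary prime joins the exceptional set). -/
theorem neatPull_eigenAt (ha : a.Prime) {S : Finset ℕ} {c : ℕ → ℤ} {x : JZero (q * M')}
    (hx : EigenAt (q * M') S c x) :
    EigenAt (q * (M' * a)) (insert a S) c (neatPull q M' a x) := by
  intro ℓ hℓ
  have hℓa : a ≠ (ℓ : ℕ) := fun h => hℓ (h ▸ Finset.mem_insert_self _ _)
  have hℓS : (ℓ : ℕ) ∉ S := fun h => hℓ (Finset.mem_insert_of_mem h)
  rw [← neatPull_hecke q M' a ha ℓ hℓa, hx ℓ hℓS, map_zsmul]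

/-! ### Base change with the degeneracy push-forwards at `q` -/

theorem alphaPush_eq_pushA672 (N r : ℕ) [NeZero N] [NeZero r] (y : JZero (N * r)) :
    alphaPush N r y = Fermat.Agent.S35.H155.pushA N r y := by
  obtain ⟨D, rfl⟩ := Pic0.mk_surjective y
  rfl

theorem betaPush_eq_pushB672 (N r : ℕ) [NeZero N] [NeZero r] (y : JZero (N * r)) :
    betaPush N r y = Fermat.Agent.S35.H155.pushB N r y := by
  obtain ⟨D, rfl⟩ := Pic0.mk_surjective y
  rfl

/-- **Base change, `α`**: `α_{q,*} (π^* x) = π_{M'}^* (α_{q,*} x)`. -/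
theorem neatPull_alphaL (hq : q.Prime) (ha : a.Prime) (hne : a ≠ q) (x : JZero (q * M')) :
    alphaL q (M' * a) (neatPull q M' a x)
      = Fermat.Agent.A2.H155.pullHom M' a (alphaL q M' x) := by
  rw [Fermat.Agent.Ribet.H801.alphaL_apply, Fermat.Agent.Ribet.H801.alphaL_apply,
    neatPull_eq_pullTop, jzeroCast_trans672, alphaPush_eq_pushA672, alphaPush_eq_pushA672]
  exact Fermat.Agent.S35.H155.pushA_pullTop M' a q hq ha hne _

/-- **Base change, `β`**: `β_{q,*} (π^* x) = π_{M'}^* (β_{q,*} x)`. -/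
theorem neatPull_betaL (hq : q.Prime) (hqM : ¬ q ∣ M') (hqa : ¬ q ∣ M' * a)
    (x : JZero (q * M')) :
    betaL q (M' * a) (neatPull q M' a x)
      = Fermat.Agent.A2.H155.pullHom M' a (betaL q M' x) := by
  rw [Fermat.Agent.Ribet.H801.betaL_apply, Fermat.Agent.Ribet.H801.betaL_apply,
    neatPull_eq_pullTop, jzeroCast_trans672, betaPush_eq_pushB672, betaPush_eq_pushB672]
  exact Fermat.Agent.S35.H155.pushB_pullTop M' a q hq hqM hqa _

/-- `π^*` preserves the `q`-new `p`-torsion classes. -/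
theorem neatPull_isNewTorsQ (p : ℕ) (hq : q.Prime) (ha : a.Prime) (hne : a ≠ q)
    (hqM : ¬ q ∣ M') {x : JZero (q * M')} (hx : IsNewTorsQ p q M' x) :
    IsNewTorsQ p q (M' * a) (neatPull q M' a x) := by
  obtain ⟨h1, h2, h3⟩ := hx
  have hqa : ¬ q ∣ M' * a := by
    intro h
    rcases (Nat.Prime.dvd_mul hq).mp h with h | h
    · exact hqM h
    · exact hne ((Nat.prime_dvd_prime_iff_eq hq ha).mp h).symm
  refine ⟨?_, ?_, ?_⟩
  · rw [← map_nsmul, h1, map_zero]
  · rw [neatPull_alphaL q M' a hq ha hne, h2, map_zero]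
  · rw [neatPull_betaL q M' a hq hqM hqa, h3, map_zero]

/-! ### The push-forward `π_*` -/

/-- `π_* π^* = a + 1` on `J₀(N)`, for the inclusion `F(N) ⊆ F(N a)`, `a ∤ N` prime. -/
theorem alphaPush_pullHom672 (N r : ℕ) [NeZero N] [NeZero r] (hr : r.Prime) (hrN : ¬ r ∣ N)
    (x : JZero N) :
    alphaPush N r (Fermat.Agent.S37.H155.pullHom N r x) = (r + 1) • x := by
  obtain ⟨D, rfl⟩ := Pic0.mk_surjective x
  have h1 : alphaPush N r (Fermat.Agent.S37.H155.pullHom N r (Pic0.mk D))
      = Pic0.mk (Fermat.Agent.Ribet.H801.pushDegZero (heckeAlphaBar (AlgebraicClosure ℚ) N r)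
          (Fermat.Agent.Lib.HI.H864.heckeAlphaBarIntegral N r)
          (Fermat.Agent.S37.H818.pullbackDegZeroAlong (heckeAlphaBar (AlgebraicClosure ℚ) N r)
            (Fermat.Agent.Lib.FF398.heckeAlphaBarIntegral N r)
            (Fermat.Agent.Lib.FF398.fundamentalIdentityAlong_alpha N r) D)) := rfl
  rw [h1]
  have h2 : (r + 1) • Pic0.mk D = Pic0.mk ((r + 1) • D) := rfl
  rw [h2]
  refine congrArg Pic0.mk (Subtype.ext ?_)
  have h3 := Fermat.Agent.S37.H155.pushforwardAlong_pullbackAlong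
    (heckeAlphaBar (AlgebraicClosure ℚ) N r) (Fermat.Agent.Lib.FF398.heckeAlphaBarIntegral N r)
    (Fermat.Agent.S37.H155.sumRamificationInertiaAlong_alpha N r)
    (D : Divisor (AlgebraicClosure ℚ) (modularFunctionFieldBar N))
  rw [Fermat.Agent.Lib.X0Deg.finrankAlong_heckeAlphaBar_of_not_dvd N r hr hrN] at h3
  have h4 : (((r + 1) • D : Divisor.degZero (K := AlgebraicClosure ℚ)
      (F := modularFunctionFieldBar N)) : Divisor (AlgebraicClosure ℚ) (modularFunctionFieldBar N))
      = (((r + 1 : ℕ) : ℤ)) • (D : Divisor (AlgebraicClosure ℚ) (modularFunctionFieldBar N)) := by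
    rw [natCast_zsmul]
    rfl
  exact h3.trans h4.symm

/-- The push-forward `π_* : J₀(q (M' a)) → J₀(q M')`. -/
def neatPush : JZero (q * (M' * a)) →+ JZero (q * M') :=
  (alphaPush (q * M') a).comp (jzeroCast (Nat.mul_assoc q M' a).symm).toAddMonoidHom

theorem neatPush_apply (y : JZero (q * (M' * a))) :
    neatPush q M' a y = alphaPush (q * M') a (jzeroCast (Nat.mul_assoc q M' a).symm y) :=
  rfl

/-- `π_*` is Galois equivariant. -/
theorem neatPush_smul (σ : AlgebraicClosure ℚ ≃ₐ[ℚ] AlgebraicClosure ℚ)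
    (y : JZero (q * (M' * a))) :
    neatPush q M' a (σ • y) = σ • neatPush q M' a y := by
  rw [neatPush_apply, neatPush_apply, Fermat.Agent.Ribet.H801.jzeroCast_smul,
    Fermat.Agent.Ribet.H801.alphaPush_smul]

/-- `π_* T_ℓ = T_ℓ π_*` for every prime `ℓ ≠ a`. -/
theorem neatPush_hecke (ha : a.Prime) (ℓ : Nat.Primes) (hne : (ℓ : ℕ) ≠ a)
    (y : JZero (q * (M' * a))) :
    neatPush q M' a (heckeOperatorBar (q * (M' * a)) ℓ y)
      = heckeOperatorBar (q * M') ℓ (neatPush q M' a y) := by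
  rw [neatPush_apply, neatPush_apply, Fermat.Agent.Ribet.H801.jzeroCast_heckeOperatorBar,
    Fermat.Agent.Ribet.H801.alphaPush_heckeOperatorBar (q * M') a ha ℓ hne]

/-- **`π_* π^* = a + 1`**. -/
theorem neatPush_neatPull (ha : a.Prime) (haN : ¬ a ∣ q * M') (x : JZero (q * M')) :
    neatPush q M' a (neatPull q M' a x) = (a + 1) • x := by
  rw [neatPush_apply, neatPull_apply, jzeroCast_symm672]
  exact alphaPush_pullHom672 (q * M') a ha haN x

/-! ### Compatibility with the Atkin–Lehner involution `w_q` -/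

/-- `wPushTo` and level casts. -/
theorem wPushTo_cast672 {M p N N' : ℕ} [NeZero M] [NeZero p] [NeZero N] [NeZero N']
    (h : N = N') (h₁ : M * p = N) (h₂ : M * p = N') (hp : p.Prime) (hpM : ¬ p ∣ M)
    (y : JZero N) :
    Fermat.Agent.Ribet.H801.wPushTo M p N' h₂ hp hpM (jzeroCast h y)
      = jzeroCast h (Fermat.Agent.Ribet.H801.wPushTo M p N h₁ hp hpM y) := by
  subst h
  rfl

/-- **Base change for `w_q`**, levels `M' q` and `M' q a`:
`π^* (w_q x) = w_q (π^* x)` for the pull-back along `F(M' q) ⊆ F(M' q a)`. -/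
theorem pullHom_wPush672 (hq : q.Prime) (ha : a.Prime) (hne : a ≠ q) (hqM : ¬ q ∣ M')
    (z : JZero (M' * q)) :
    Fermat.Agent.S37.H155.pullHom (M' * q) a (Fermat.Agent.Ribet.H801.wPush M' q hq hqM z)
      = Fermat.Agent.Ribet.H801.wPushTo (M' * a) q (M' * q * a) (Nat.mul_right_comm M' a q) hq
          (Fermat.Agent.Ribet.H801.not_dvd_mul_of_ne M' q a hq ha hne hqM)
          (Fermat.Agent.S37.H155.pullHom (M' * q) a z) := by
  haveI := Fermat.Agent.Lib.HI.H864.hasPrincipalDivisors_FF (M' * q)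
  haveI := Fermat.Agent.Lib.HI.H864.hasPrincipalDivisors_FF (M' * q * a)
  have hc : M' * a * q = M' * q * a := Nat.mul_right_comm M' a q
  have hqMa := Fermat.Agent.Ribet.H801.not_dvd_mul_of_ne M' q a hq ha hne hqM
  exact Fermat.Agent.S36.H160.pullbackPic0Along_pushPic0
    (Fermat.Agent.Ribet.H801.swapHom M' q hq hqM)
    (heckeAlphaBar (AlgebraicClosure ℚ) (M' * q) a)
    (Fermat.Agent.Ribet.H801.swapTo (M' * a) q (M' * q * a) hc hq hqMa)
    (heckeAlphaBar (AlgebraicClosure ℚ) (M' * q) a)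
    (Fermat.Agent.Ribet.H801.swapHom_integral hq hqM)
    (Fermat.Agent.Lib.FF398.heckeAlphaBarIntegral (M' * q) a)
    (Fermat.Agent.Ribet.H801.swapTo_integral hc hq hqMa)
    (Fermat.Agent.Lib.FF398.heckeAlphaBarIntegral (M' * q) a)
    (Fermat.Agent.Ribet.H801.swap_sq_alpha M' q a hq ha hne hqM)
    (Fermat.Agent.Ribet.H801.swapHom_finite hq hqM)
    (Fermat.Agent.Ribet.H801.swapHom_normFormula hq hqM _)
    (Fermat.Agent.Ribet.H801.swapTo_finite hc hq hqMa)
    (Fermat.Agent.Ribet.H801.swapTo_normFormula hc hq hqMa _)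
    (Fermat.Agent.Lib.FF398.fundamentalIdentityAlong_alpha (M' * q) a)
    (Fermat.Agent.Lib.FF398.fundamentalIdentityAlong_alpha (M' * q) a)
    (Fermat.Agent.Ribet.H801.normCompat_of_bijective _ _ _ _
      (Fermat.Agent.Ribet.H801.swapHom_bijective hq hqM)
      (Fermat.Agent.Ribet.H801.swapTo_bijective hc hq hqMa)
      (Fermat.Agent.Ribet.H801.swap_sq_alpha M' q a hq ha hne hqM))
    (Fermat.Agent.S29.H801.hasLocalGenerators_of_hasPrincipalDivisors _ _) z

/-- `pullHom` and the level cast `M' q = q M'`. -/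
theorem pullHom_cast672 (y : JZero (M' * q)) :
    Fermat.Agent.S37.H155.pullHom (q * M') a (jzeroCast (Nat.mul_comm M' q) y)
      = jzeroCast (show M' * q * a = q * M' * a by rw [Nat.mul_comm M' q])
          (Fermat.Agent.S37.H155.pullHom (M' * q) a y) :=
  pullback_cast672 (Nat.mul_comm M' q) (show M' * q * a = q * M' * a by rw [Nat.mul_comm M' q])
    (heckeAlphaBar (AlgebraicClosure ℚ) (M' * q) a) (heckeAlphaBar (AlgebraicClosure ℚ) (q * M') a)
    (fun y => coe_heckeAlphaBar (M' * q) a y) (fun y => coe_heckeAlphaBar (q * M') a y)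
    (Fermat.Agent.Lib.FF398.heckeAlphaBarIntegral (M' * q) a)
    (Fermat.Agent.Lib.FF398.fundamentalIdentityAlong_alpha (M' * q) a)
    (Fermat.Agent.Lib.FF398.heckeAlphaBarIntegral (q * M') a)
    (Fermat.Agent.Lib.FF398.fundamentalIdentityAlong_alpha (q * M') a) y

/-- **`π^*` commutes with the Atkin–Lehner involution `w_q`** (wall convention). -/
theorem neatPull_wL (hq : q.Prime) (ha : a.Prime) (hne : a ≠ q) (hqM : ¬ q ∣ M')
    (hqMa : ¬ q ∣ M' * a) (x : JZero (q * M')) :
    neatPull q M' a (Fermat.Agent.Ribet.H801.wL q M' hq hqM x)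
      = Fermat.Agent.Ribet.H801.wL q (M' * a) hq hqMa (neatPull q M' a x) := by
  obtain ⟨z, rfl⟩ : ∃ z : JZero (M' * q), jzeroCast (Nat.mul_comm M' q) z = x :=
    ⟨jzeroCast (Nat.mul_comm M' q).symm x, jzeroCast_symm672 (Nat.mul_comm M' q).symm x⟩
  have h1 : Fermat.Agent.Ribet.H801.wL q M' hq hqM (jzeroCast (Nat.mul_comm M' q) z)
      = jzeroCast (Nat.mul_comm M' q) (Fermat.Agent.Ribet.H801.wPush M' q hq hqM z) := by
    rw [Fermat.Agent.Ribet.H801.wL_apply, jzeroCast_symm672]
  have h2 : ∀ y : JZero (M' * q), neatPull q M' a (jzeroCast (Nat.mul_comm M' q) y)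
      = jzeroCast (show M' * q * a = q * (M' * a) by ring)
          (Fermat.Agent.S37.H155.pullHom (M' * q) a y) := by
    intro y
    rw [neatPull_apply, pullHom_cast672, jzeroCast_trans672]
  rw [h1, h2, h2, pullHom_wPush672 q M' a hq ha hne hqM]
  exact (wPushTo_cast672 (show M' * q * a = q * (M' * a) by ring)
    (Nat.mul_right_comm M' a q) (Nat.mul_comm (M' * a) q) hq hqMa _).symm

end Def

end Fermat.Agent.S59.H672.NeatPull

end
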