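import Fermat.Agent.S59.H672.NeatPull
import Fermat.Agent.S59.H158.NeatGlue

/-!
# Row S59, cell (B1): the leaf NEAT-PULL, instance of `H158.Neat.NeatPull` (helper672)

`neatPullR q r M' : J₀(q M') →+ J₀(q (r M'))` is the pull-back of divisor classes along the
inclusion `F(q M') ⊆ F(q r M')` (the degeneracy map `α_r`), in the level convention of
`H158.Neat.NeatPackageAt`.

    isNeatPull : p, q, r primes, r ≠ q, q ∤ M', r ∤ q M', gcd (r + 1, p) = 1
      → H158.Neat.NeatPull p q M' (r * M') hq hqM hqN {r} (neatPullR q r M')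

(`galois`, `hecke` off `{r}`, `new`, `inj`, `atkin`), UNCONDITIONAL.
-/

set_option autoImplicit false
set_option linter.style.haveILetI false
set_option linter.unusedSectionVars false
set_option synthInstance.maxHeartbeats 400000
set_option maxHeartbeats 1000000

noncomputable section

namespace Fermat.Agent.S59.H672.NeatPull

open AlgebraicCurve ModularCurve
open Fermat.Agent.Ribet.H801 (alphaL betaL jzeroCast wL)
open Fermat.Agent.Ribet.H158.WallQ (IsNewTorsQ)
open Fermat.Agent.Ribet.H944.Wall (EigenAt)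

section Casts

variable {q N N' : ℕ} [NeZero q] [NeZero N] [NeZero N'] [NeZero (q * N)] [NeZero (q * N')]

theorem alphaL_cast672 (h : N = N') (y : JZero (q * N)) :
    alphaL q N' (jzeroCast (congrArg (q * ·) h) y) = jzeroCast h (alphaL q N y) := by
  subst h
  rfl

theorem betaL_cast672 (h : N = N') (y : JZero (q * N)) :
    betaL q N' (jzeroCast (congrArg (q * ·) h) y) = jzeroCast h (betaL q N y) := by
  subst h
  rfl

theorem isNewTorsQ_cast672 (p : ℕ) (h : N = N') {y : JZero (q * N)}
    (hy : IsNewTorsQ p q N y) : IsNewTorsQ p q N' (jzeroCast (congrArg (q * ·) h) y) := by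
  subst h
  exact hy

theorem wL_cast672 (h : N = N') (hq : q.Prime) (hqN : ¬ q ∣ N) (hqN' : ¬ q ∣ N')
    (y : JZero (q * N)) :
    wL q N' hq hqN' (jzeroCast (congrArg (q * ·) h) y)
      = jzeroCast (congrArg (q * ·) h) (wL q N hq hqN y) := by
  subst h
  rfl

end Casts

section Inst

variable (q r M' : ℕ) [NeZero q] [NeZero r] [NeZero M'] [NeZero (q * M')] [NeZero (r * M')]
  [NeZero (q * (r * M'))]

/-- **NEAT-PULL** in the level convention of `H158.Neat`: `π^* : J₀(q M') → J₀(q (r M'))`. -/
def neatPullR : JZero (q * M') →+ JZero (q * (r * M')) :=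
  (jzeroCast (congrArg (q * ·) (Nat.mul_comm M' r))).toAddMonoidHom.comp (neatPull q M' r)

theorem neatPullR_apply (x : JZero (q * M')) :
    neatPullR q r M' x = jzeroCast (congrArg (q * ·) (Nat.mul_comm M' r)) (neatPull q M' r x) :=
  rfl

/-- **The leaf NEAT-PULL**: `neatPullR` satisfies `H158.Neat.NeatPull` with `S₀ = {r}`. -/
theorem isNeatPull (p : ℕ) (hq : q.Prime) (hqM : ¬ q ∣ M') (hqN : ¬ q ∣ r * M')
    (hr : r.Prime) (hrq : r ≠ q) (hrM : ¬ r ∣ M') (hcop : Nat.Coprime (r + 1) p) :
    Fermat.Agent.S59.H158.Neat.NeatPull p q M' (r * M') hq hqM hqN {r} (neatPullR q r M') where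
  galois := by
    intro σ x
    rw [neatPullR_apply, neatPullR_apply, neatPull_smul,
      Fermat.Agent.Ribet.H801.jzeroCast_smul]
  hecke := by
    intro ℓ hℓ x _
    have hne : r ≠ (ℓ : ℕ) := fun h => hℓ (Finset.mem_singleton.2 h.symm)
    rw [neatPullR_apply, neatPullR_apply, neatPull_hecke q M' r hr ℓ hne,
      Fermat.Agent.Ribet.H801.jzeroCast_heckeOperatorBar]
  new := by
    intro x hx
    rw [neatPullR_apply]
    exact isNewTorsQ_cast672 p (Nat.mul_comm M' r) (neatPull_isNewTorsQ q M' r p hq hr hrq hqM hx)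
  inj := by
    intro x hpx hx
    have hrN : ¬ r ∣ q * M' := by
      intro h
      rcases (Nat.Prime.dvd_mul hr).mp h with h | h
      · exact hrq ((Nat.prime_dvd_prime_iff_eq hr hq).mp h)
      · exact hrM h
    rw [neatPullR_apply] at hx
    have h1 : neatPull q M' r x = 0 :=
      (jzeroCast (congrArg (q * ·) (Nat.mul_comm M' r))).injective (hx.trans (map_zero _).symm)
    exact neatPull_inj q M' r hr hrN p hcop.symm x hpx h1
  atkin := by
    intro x
    have hqMr : ¬ q ∣ M' * r := by rwa [Nat.mul_comm]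
    rw [neatPullR_apply, neatPullR_apply, neatPull_wL q M' r hq hr hrq hqM hqMr,
      wL_cast672 (Nat.mul_comm M' r) hq hqMr hqN]

end Inst

end Fermat.Agent.S59.H672.NeatPull

end
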